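/-
P-PET / PET-MEAN (helper98): interfaces for the invariant mean.

Target: `Fermat.Agent.H30.InvariantMeanStatement`.  Route: the mean of an admissible function
`Φ` is `(∫_F Φ dμ) / μ(F)` for ANY pair `(H, F)` with `H` a countable subgroup of `GL(2, ℝ)`
commensurable with the image of `SL(2, ℤ)`, `Φ` invariant under `H`, and `F` a fundamental
domain (in the sense of `MeasureTheory.IsFundamentalDomain`) of finite measure.

Blocks (all Mathlib-only):
* `FdFiniteStatement`, `FdAEDisjointStatement`, `OpenPosStatement` (PET-M1): facts about the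
  standard fundamental domain and the hyperbolic measure.
* `FundamentalDomainIndexStatement` (PET-M2): abstract construction of a fundamental domain of
  a subgroup from "coset representatives" (covers both the passage `SL(2, ℤ) ⊇ Γ(M)`, where
  `-1` acts trivially, and the passage to a subgroup of finite index).
-/
import Mathlib

set_option autoImplicit false

open MeasureTheory UpperHalfPlane

open scoped MatrixGroups Pointwise

namespace Fermat.Agent.H98.Pet

/-- **PET-M1a.**  The standard fundamental domain of `SL(2, ℤ)` has finite hyperbolic volume. -/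
def FdFiniteStatement : Prop :=
  (volume : Measure ℍ) ModularGroup.fd ≠ ⊤

/-- **PET-M1b.**  Translates of the standard fundamental domain by `g ≠ ± 1` meet the
fundamental domain in a null set. -/
def FdAEDisjointStatement : Prop :=
  ∀ g : SL(2, ℤ), g ≠ 1 → g ≠ -1 →
    (volume : Measure ℍ) ((fun z : ℍ => g • z) '' ModularGroup.fd ∩ ModularGroup.fd) = 0

/-- **PET-M1c.**  Nonempty open subsets of the upper half plane have positive hyperbolic
volume. -/
def OpenPosStatement : Prop :=
  ∀ U : Set ℍ, IsOpen U → U.Nonempty → (volume : Measure ℍ) U ≠ 0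

/-- **PET-M2.**  Abstract construction of fundamental domains.  `H` is a countable subgroup of
a group `G` acting on `X` preserving `μ`; `F` is "a fundamental domain of `H` modulo the
elements acting trivially"; `H' ≤ H` and `t : ι → H` is a finite family such that every
element of `H` acts like exactly one `t i * k`, `k ∈ H'`.  Then `⋃ i, (t i)⁻¹ • F` is a
fundamental domain of `H'`, of measure `card ι * μ F`, and integrals of `H`-invariant
functions over it are `card ι` times the integrals over `F`. -/
def FundamentalDomainIndexStatement : Prop :=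
  ∀ (G X : Type) [Group G] [MulAction G X] [MeasurableSpace X] (μ : Measure X)
    [MeasurableConstSMul G X] [SMulInvariantMeasure G X μ]
    (H H' : Subgroup G) [Countable H] (F : Set X) (ι : Type) [Fintype ι] (t : ι → G),
    NullMeasurableSet F μ →
    (∀ᵐ x ∂μ, ∃ h ∈ H, h • x ∈ F) →
    (∀ h ∈ H, (∀ x : X, h • x = x) ∨ AEDisjoint μ (h • F) F) →
    H' ≤ H → (∀ i, t i ∈ H) →
    (∀ h ∈ H, ∃ i, ∃ k ∈ H', ∀ x : X, h • x = (t i * k) • x) →
    (∀ i j, ∀ k ∈ H', (∀ x : X, (t i * k) • x = t j • x) → i = j ∧ k = 1) →
    IsFundamentalDomain H' (⋃ i, (t i)⁻¹ • F) μ ∧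
    μ (⋃ i, (t i)⁻¹ • F) = Fintype.card ι * μ F ∧
    ∀ Φ : X → ℂ, IntegrableOn Φ F μ → (∀ h ∈ H, ∀ x, Φ (h • x) = Φ x) →
      ∫ x in ⋃ i, (t i)⁻¹ • F, Φ x ∂μ = Fintype.card ι * ∫ x in F, Φ x ∂μ

end Fermat.Agent.H98.Pet
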