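/-
P-PET / PET-MEAN (helper98): mean data `(H, F)` and their basic operations
(passage to a subgroup of finite index, conjugation).
-/
import Fermat.Agent.H98.Pet.Interfaces

set_option autoImplicit false

open MeasureTheory UpperHalfPlane

open scoped MatrixGroups Pointwise

namespace Fermat.Agent.H98.Pet

/-- A *mean datum* for `Φ`: a countable subgroup `H` of `GL(2, ℝ)` commensurable with the image
of `SL(2, ℤ)`, leaving `Φ` invariant, with a fundamental domain `F` of finite volume. -/
structure IsDatum (Φ : ℍ → ℂ) (H : Subgroup (GL (Fin 2) ℝ)) (F : Set ℍ) : Prop where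
  countable : Countable H
  comm : Subgroup.Commensurable H 𝒮ℒ
  inv : ∀ h ∈ H, ∀ z : ℍ, Φ (h • z) = Φ z
  isFD : IsFundamentalDomain H F (volume : Measure ℍ)
  fin : (volume : Measure ℍ) F ≠ ⊤

theorem volume_ne_zero_of (h1c : OpenPosStatement) : (volume : Measure ℍ) ≠ 0 := by
  intro h
  have h1 : (volume : Measure ℍ) Set.univ = 0 := by rw [h]; rfl
  exact h1c Set.univ isOpen_univ ⟨UpperHalfPlane.I, trivial⟩ h1

theorem IsDatum.volume_ne_zero (h1c : OpenPosStatement) {Φ : ℍ → ℂ}
    {H : Subgroup (GL (Fin 2) ℝ)} {F : Set ℍ} (hD : IsDatum Φ H F) :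
    (volume : Measure ℍ) F ≠ 0 :=
  haveI := hD.countable
  hD.isFD.measure_ne_zero (volume_ne_zero_of h1c)

/-- A nontrivial element of a group with a fundamental domain of nonzero measure does not act
trivially. -/
theorem eq_one_of_smul_eq_self {H : Subgroup (GL (Fin 2) ℝ)} {F : Set ℍ}
    (hF : IsFundamentalDomain H F (volume : Measure ℍ)) (hF0 : (volume : Measure ℍ) F ≠ 0)
    {h : GL (Fin 2) ℝ} (hh : h ∈ H) (htriv : ∀ z : ℍ, h • z = z) : h = 1 := by
  by_contra hne
  have hne' : (⟨h, hh⟩ : H) ≠ 1 := fun e => hne (congrArg Subtype.val e)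
  have hdis := hF.aedisjoint hne'
  have hset : ((⟨h, hh⟩ : H) • F) = F := by
    ext z
    constructor
    · rintro ⟨w, hw, rfl⟩
      have : (⟨h, hh⟩ : H) • w = w := htriv w
      simpa [this] using hw
    · intro hz
      exact ⟨z, hz, htriv z⟩
  have : (volume : Measure ℍ) (F ∩ F) = 0 := by
    have h1 : ((1 : H) • F) = F := one_smul _ _
    have := hdis
    simp only [Function.onFun, hset, h1] at this
    exact this
  rw [Set.inter_self] at this
  exact hF0 this

/-- **Passage to a subgroup of finite index.** -/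
theorem IsDatum.exists_of_le (h2 : FundamentalDomainIndexStatement) (h1c : OpenPosStatement)
    {Φ : ℍ → ℂ} {H : Subgroup (GL (Fin 2) ℝ)} {F : Set ℍ} (hD : IsDatum Φ H F)
    (K : Subgroup (GL (Fin 2) ℝ)) (hKH : K ≤ H) (hfin : K.relIndex H ≠ 0) :
    ∃ (F' : Set ℍ) (d : ℕ), d ≠ 0 ∧ IsFundamentalDomain K F' (volume : Measure ℍ) ∧
      (volume : Measure ℍ) F' = d * (volume : Measure ℍ) F ∧
      ∀ Ψ : ℍ → ℂ, IntegrableOn Ψ F (volume : Measure ℍ) →
        (∀ h ∈ H, ∀ z : ℍ, Ψ (h • z) = Ψ z) →
        ∫ z in F', Ψ z = d * ∫ z in F, Ψ z := by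
  classical
  haveI := hD.countable
  haveI : (K.subgroupOf H).FiniteIndex := ⟨hfin⟩
  let ι := ↥H ⧸ K.subgroupOf H
  haveI : Finite ι := Subgroup.finite_quotient_of_finiteIndex
  letI : Fintype ι := Fintype.ofFinite ι
  let t : ι → GL (Fin 2) ℝ := fun q => ((Quotient.out q : ↥H) : GL (Fin 2) ℝ)
  have hF0 := hD.volume_ne_zero h1c
  have hmain := h2 (GL (Fin 2) ℝ) ℍ volume H K F ι t hD.isFD.nullMeasurableSet
    (hD.isFD.ae_covers.mono fun x ⟨g, hg⟩ => ⟨g.1, g.2, hg⟩)
    (by
      intro h hh
      by_cases h1 : h = 1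
      · left; intro x; rw [h1, one_smul]
      · right
        have hne' : (⟨h, hh⟩ : H) ≠ 1 := fun e => h1 (congrArg Subtype.val e)
        have := hD.isFD.aedisjoint hne'
        simpa [Function.onFun] using this)
    hKH (fun i => (Quotient.out i : ↥H).2)
    (by
      intro h hh
      refine ⟨QuotientGroup.mk (⟨h, hh⟩ : H), (((Quotient.out (QuotientGroup.mk (⟨h, hh⟩ : H) :
        ι) : ↥H) : GL (Fin 2) ℝ))⁻¹ * h, ?_, ?_⟩
      · have hq : (QuotientGroup.mk (Quotient.out (QuotientGroup.mk (⟨h, hh⟩ : H) : ι)) : ι)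
            = QuotientGroup.mk (⟨h, hh⟩ : H) := QuotientGroup.out_eq' _
        have := QuotientGroup.eq.mp hq
        rw [Subgroup.mem_subgroupOf] at this
        simpa using this
      · intro x
        simp [t, mul_smul])
    (by
      intro i j k hk hact
      have hk1 : (t j)⁻¹ * (t i * k) = 1 := by
        apply eq_one_of_smul_eq_self hD.isFD hF0
        · exact H.mul_mem (H.inv_mem (Quotient.out j : ↥H).2)
            (H.mul_mem (Quotient.out i : ↥H).2 (hKH hk))
        · intro z
          rw [mul_smul, hact z, inv_smul_smul]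
      have hk2 : t i * k = t j := by
        have := congrArg (fun y => t j * y) hk1
        simpa [mul_assoc] using this
      have hij : i = j := by
        have h3 : (QuotientGroup.mk (Quotient.out i : ↥H) : ι)
            = QuotientGroup.mk (Quotient.out j : ↥H) := by
          rw [QuotientGroup.eq, Subgroup.mem_subgroupOf]
          have : (((Quotient.out i : ↥H) : GL (Fin 2) ℝ))⁻¹ * ((Quotient.out j : ↥H) : GL (Fin 2) ℝ)
              = k := by
            show (t i)⁻¹ * t j = k
            rw [← hk2]; group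
          simpa [this] using hk
        rwa [QuotientGroup.out_eq', QuotientGroup.out_eq'] at h3
      refine ⟨hij, ?_⟩
      subst hij
      exact mul_left_cancel (a := t i) (by rw [hk2, mul_one]))
  obtain ⟨hfd, hvol, hint⟩ := hmain
  refine ⟨⋃ i, (t i)⁻¹ • F, Fintype.card ι, Fintype.card_ne_zero, hfd, ?_, ?_⟩
  · rw [hvol]
  · intro Ψ hΨ hinv
    rw [hint Ψ hΨ hinv]

end Fermat.Agent.H98.Pet
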