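/-
P-PET / PET-MEAN (helper98): the base case.  For `M ≥ 3` the image of `Γ(M)` in `GL(2, ℝ)` has
a fundamental domain of finite volume (a finite union of translates of the standard fundamental
domain of `SL(2, ℤ)`).
-/
import Fermat.Agent.H98.Pet.Datum

set_option autoImplicit false
set_option linter.style.haveILetI false

open MeasureTheory UpperHalfPlane Matrix.SpecialLinearGroup

open scoped MatrixGroups Pointwise Modular

namespace Fermat.Agent.H98.Pet

theorem countable_SL2Z : Countable SL(2, ℤ) := by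
  have h1 : Countable (Fin 2 → Fin 2 → ℤ) := inferInstance
  have h2 : Countable (Matrix (Fin 2) (Fin 2) ℤ) := h1
  exact Subtype.countable

theorem countable_range_mapGL : Countable ↥(𝒮ℒ) := by
  haveI := countable_SL2Z
  exact Set.countable_range _ |>.to_subtype

/-- the point `2 i` of the open fundamental domain -/
theorem exists_mem_fdo : ∃ z : ℍ, z ∈ 𝒟ᵒ := by
  refine ⟨⟨2 * Complex.I, by simp⟩, ?_⟩
  constructor
  · simp [Complex.normSq_apply]; norm_num
  · simp

/-- An element of `SL(2, ℤ)` acting trivially on `ℍ` is `± 1`. -/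
theorem eq_one_or_neg_one_of_smul_eq {g : SL(2, ℤ)} (h : ∀ z : ℍ, g • z = z) :
    g = 1 ∨ g = -1 := by
  obtain ⟨z, hz⟩ := exists_mem_fdo
  exact ModularGroup.eq_one_or_neg_one_of_mem_fdo_mem_fd hz
    (by rw [h z]; exact ModularGroup.fdo_subset_fd hz)

theorem neg_one_not_mem_Gamma {M : ℕ} (hM : 3 ≤ M) :
    (-1 : SL(2, ℤ)) ∉ CongruenceSubgroup.Gamma M := by
  intro h
  rw [CongruenceSubgroup.Gamma_mem] at h
  have h1 := h.1
  simp only [Matrix.SpecialLinearGroup.coe_neg, Matrix.SpecialLinearGroup.coe_one,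
    Matrix.neg_apply, Matrix.one_apply_eq, Int.cast_neg, Int.cast_one] at h1
  have h2 : ((2 : ℕ) : ZMod M) = 0 := by
    have : (1 : ZMod M) + 1 = 0 := by
      nth_rewrite 1 [← h1]
      ring
    push_cast
    rw [← this]; ring
  rw [ZMod.natCast_eq_zero_iff] at h2
  have := Nat.le_of_dvd (by norm_num) h2
  omega

theorem mem_zpowers_neg_one {b : SL(2, ℤ)} (hb : b ∈ Subgroup.zpowers (-1 : SL(2, ℤ))) :
    b = 1 ∨ b = -1 := by
  obtain ⟨k, rfl⟩ := Subgroup.mem_zpowers_iff.mp hb
  rcases Int.even_or_odd k with hk | hk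
  · left
    exact Even.neg_one_zpow hk
  · right
    exact Odd.neg_one_zpow hk

/-- **Base case.**  For `M ≥ 3`, the image of `Γ(M)` in `GL(2, ℝ)` has a fundamental domain of
finite volume. -/
theorem exists_fd_Gamma (h1a : FdFiniteStatement) (h1b : FdAEDisjointStatement)
    (h2 : FundamentalDomainIndexStatement) {M : ℕ} (hM : 3 ≤ M) :
    ∃ F : Set ℍ,
      IsFundamentalDomain ((CongruenceSubgroup.Gamma M).map (mapGL ℝ)) F (volume : Measure ℍ) ∧
      (volume : Measure ℍ) F ≠ ⊤ := by
  classical
  haveI : NeZero M := ⟨by omega⟩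
  haveI := countable_range_mapGL
  haveI hnG : (CongruenceSubgroup.Gamma M).Normal := CongruenceSubgroup.Gamma_normal M
  let Γpm : Subgroup SL(2, ℤ) := Subgroup.zpowers (-1 : SL(2, ℤ)) ⊔ CongruenceSubgroup.Gamma M
  have hΓle : CongruenceSubgroup.Gamma M ≤ Γpm := le_sup_right
  haveI : Γpm.FiniteIndex := Subgroup.finiteIndex_of_le hΓle
  have hΓpm : ∀ x : SL(2, ℤ), x ∈ Γpm ↔ ∃ k ∈ CongruenceSubgroup.Gamma M, x = k ∨ x = -k := by
    intro x
    have hset : ((Γpm : Subgroup SL(2, ℤ)) : Set SL(2, ℤ))
        = (Subgroup.zpowers (-1 : SL(2, ℤ)) : Set SL(2, ℤ)) * (CongruenceSubgroup.Gamma M) :=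
      Subgroup.mul_normal _ _
    rw [← SetLike.mem_coe, hset, Set.mem_mul]
    constructor
    · rintro ⟨b, hb, k, hk, rfl⟩
      refine ⟨k, hk, ?_⟩
      rcases mem_zpowers_neg_one hb with rfl | rfl
      · left; simp
      · right; simp
    · rintro ⟨k, hk, e | e⟩
      · exact ⟨1, Subgroup.one_mem _, k, hk, by simp [e]⟩
      · exact ⟨-1, Subgroup.mem_zpowers _, k, hk, by simp [e]⟩
  let ι := SL(2, ℤ) ⧸ Γpm
  haveI : Finite ι := Subgroup.finite_quotient_of_finiteIndex
  letI : Fintype ι := Fintype.ofFinite ι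
  let t : ι → GL (Fin 2) ℝ := fun q => mapGL ℝ (Quotient.out q : SL(2, ℤ))
  have hsm : ∀ (g : SL(2, ℤ)) (z : ℍ), (mapGL ℝ g) • z = g • z := fun g z => rfl
  have hmain := h2 (GL (Fin 2) ℝ) ℍ volume 𝒮ℒ ((CongruenceSubgroup.Gamma M).map (mapGL ℝ))
    𝒟 ι t ModularGroup.isClosed_fd.measurableSet.nullMeasurableSet
    (Filter.Eventually.of_forall fun x => by
      obtain ⟨g, hg⟩ := ModularGroup.exists_smul_mem_fd x
      exact ⟨mapGL ℝ g, ⟨g, rfl⟩, hg⟩)
    (by
      rintro h ⟨g, rfl⟩
      by_cases h1 : g = 1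
      · left; intro x; rw [h1, map_one, one_smul]
      by_cases h2' : g = -1
      · left; intro x
        rw [hsm, h2', ModularGroup.SL_neg_smul, one_smul]
      · right
        have := h1b g h1 h2'
        have himg : (fun z : ℍ => g • z) '' 𝒟 = (mapGL ℝ g) • (𝒟 : Set ℍ) := by
          ext z
          simp [Set.mem_smul_set, hsm]
        rw [himg] at this
        exact this)
    (Subgroup.map_le_range _ _) (fun i => ⟨_, rfl⟩)
    (by
      rintro h ⟨g, rfl⟩
      have hq : (QuotientGroup.mk (Quotient.out (QuotientGroup.mk g : ι)) : ι)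
          = QuotientGroup.mk g := QuotientGroup.out_eq' _
      have hmem := QuotientGroup.eq.mp hq
      obtain ⟨k, hk, hk'⟩ := (hΓpm _).mp hmem
      refine ⟨QuotientGroup.mk g, mapGL ℝ k, ⟨k, hk, rfl⟩, ?_⟩
      intro x
      show (mapGL ℝ g) • x = (mapGL ℝ (Quotient.out (QuotientGroup.mk g : ι)) * mapGL ℝ k) • x
      rw [← map_mul, hsm, hsm]
      rcases hk' with e | e
      · rw [← e]; simp
      · have : Quotient.out (QuotientGroup.mk g : ι) * k = -g := by
          have e' : k = -((Quotient.out (QuotientGroup.mk g : ι))⁻¹ * g) := by rw [e]; simp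
          rw [e']; simp
        rw [this, ModularGroup.SL_neg_smul])
    (by
      rintro i j k ⟨k₀, hk₀, rfl⟩ hact
      have htriv : ∀ z : ℍ, ((Quotient.out j : SL(2, ℤ))⁻¹ * (Quotient.out i * k₀)) • z = z := by
        intro z
        have := hact z
        simp only [t, ← map_mul, hsm] at this
        rw [mul_smul, this, inv_smul_smul]
      have hpm := eq_one_or_neg_one_of_smul_eq htriv
      have hmem : (Quotient.out i : SL(2, ℤ))⁻¹ * Quotient.out j ∈ Γpm := by
        rw [hΓpm]
        refine ⟨k₀, hk₀, ?_⟩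
        rcases hpm with e | e
        · left
          have : Quotient.out i * k₀ = Quotient.out j := by
            have := congrArg (fun y => (Quotient.out j : SL(2, ℤ)) * y) e
            simpa [mul_assoc] using this
          rw [← this]; group
        · right
          have : Quotient.out i * k₀ = -Quotient.out j := by
            have := congrArg (fun y => (Quotient.out j : SL(2, ℤ)) * y) e
            simpa [mul_assoc] using this
          have h3 : (Quotient.out j : SL(2, ℤ)) = -(Quotient.out i * k₀) := by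
            rw [this]; simp
          rw [h3]; simp
      have hij : i = j := by
        have h3 : (QuotientGroup.mk (Quotient.out i : SL(2, ℤ)) : ι)
            = QuotientGroup.mk (Quotient.out j : SL(2, ℤ)) := QuotientGroup.eq.mpr hmem
        rwa [QuotientGroup.out_eq', QuotientGroup.out_eq'] at h3
      refine ⟨hij, ?_⟩
      subst hij
      have hk1 : k₀ = 1 ∨ k₀ = -1 := by
        rcases hpm with e | e
        · left
          have := e
          simpa [← mul_assoc] using this
        · right
          have := e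
          simpa [← mul_assoc] using this
      rcases hk1 with e | e
      · rw [e, map_one]
      · exact absurd (e ▸ hk₀) (neg_one_not_mem_Gamma hM))
  obtain ⟨hfd, hvol, -⟩ := hmain
  refine ⟨⋃ i, (t i)⁻¹ • (𝒟 : Set ℍ), hfd, ?_⟩
  rw [hvol]
  exact ENNReal.mul_ne_top (ENNReal.natCast_ne_top _) h1a

end Fermat.Agent.H98.Pet
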