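/-
P-PET / PET-MEAN (helper98): conjugation of mean data and well-definedness of the mean.
-/
import Fermat.Agent.H98.Pet.Datum

set_option autoImplicit false
set_option linter.style.haveILetI false

open MeasureTheory UpperHalfPlane

open scoped MatrixGroups Pointwise

namespace Fermat.Agent.H98.Pet

/-- Bounded measurable functions are integrable on sets of finite volume. -/
theorem integrableOn_of_bdd {Φ : ℍ → ℂ} (hm : Measurable Φ) (hb : ∃ C : ℝ, ∀ z, ‖Φ z‖ ≤ C)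
    {F : Set ℍ} (hF : (volume : Measure ℍ) F ≠ ⊤) : IntegrableOn Φ F (volume : Measure ℍ) := by
  obtain ⟨C, hC⟩ := hb
  exact Measure.integrableOn_of_bounded (M := C) hF hm.aestronglyMeasurable
    (Filter.Eventually.of_forall hC)

/-- **Conjugation** of a mean datum by `g ∈ GL(2, ℝ)` in the commensurator of `SL(2, ℤ)`. -/
theorem IsDatum.conj {Φ : ℍ → ℂ} {H : Subgroup (GL (Fin 2) ℝ)} {F : Set ℍ}
    (hD : IsDatum Φ H F) (g : GL (Fin 2) ℝ)
    (hg : Subgroup.Commensurable (ConjAct.toConjAct g⁻¹ • 𝒮ℒ) 𝒮ℒ) :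
    IsDatum (fun z => Φ (g • z)) (ConjAct.toConjAct g⁻¹ • H) (g⁻¹ • F) := by
  haveI := hD.countable
  have hmem : ∀ h : GL (Fin 2) ℝ, h ∈ ConjAct.toConjAct g⁻¹ • H ↔ g * h * g⁻¹ ∈ H := by
    intro h
    rw [Subgroup.mem_pointwise_smul_iff_inv_smul_mem, ← map_inv, inv_inv, ConjAct.toConjAct_smul]
  refine ⟨?_, ?_, ?_, ?_, ?_⟩
  · exact (Subgroup.equivSMul (ConjAct.toConjAct g⁻¹) H).symm.injective.countable
  · exact (hD.comm.conj (ConjAct.toConjAct g⁻¹)).trans hg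
  · intro h hh z
    have h1 := (hmem h).mp hh
    have h2 := hD.inv _ h1 (g • z)
    rw [← h2]
    congr 1
    simp only [smul_smul]
    congr 1
    group
  · let e : ↥(ConjAct.toConjAct g⁻¹ • H) ≃ ↥H :=
      { toFun := fun h => ⟨g * h.1 * g⁻¹, (hmem h.1).mp h.2⟩
        invFun := fun h => ⟨g⁻¹ * h.1 * g, (hmem _).mpr (by
          have : g * (g⁻¹ * h.1 * g) * g⁻¹ = h.1 := by group
          rw [this]; exact h.2)⟩
        left_inv := fun h => Subtype.ext (by simp only; group)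
        right_inv := fun h => Subtype.ext (by simp only; group) }
    have := hD.isFD.image_of_equiv (ν := (volume : Measure ℍ)) (MulAction.toPerm g⁻¹)
      (by
        have : (⇑(MulAction.toPerm g⁻¹ : Equiv.Perm ℍ).symm) = fun z : ℍ => g • z := by
          funext z
          rw [Equiv.symm_apply_eq]
          simp [MulAction.toPerm_apply]
        rw [this]
        exact (measurePreserving_smul g (volume : Measure ℍ)).quasiMeasurePreserving)
      e
      (by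
        intro h x
        show g⁻¹ • ((⟨g * h.1 * g⁻¹, _⟩ : H) • x) = h • (g⁻¹ • x)
        show g⁻¹ • ((g * h.1 * g⁻¹) • x) = h.1 • (g⁻¹ • x)
        simp only [smul_smul]
        congr 1
        group)
    have himg : (⇑(MulAction.toPerm g⁻¹ : Equiv.Perm ℍ)) '' F = g⁻¹ • F := by
      ext z
      simp [Set.mem_smul_set]
    rwa [himg] at this
  · rw [measure_smul]
    exact hD.fin

/-- Change of variables for the integral over a conjugated datum. -/
theorem setIntegral_smul_inv (Φ : ℍ → ℂ) (g : GL (Fin 2) ℝ) (F : Set ℍ) :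
    ∫ z in g⁻¹ • F, Φ (g • z) = ∫ z in F, Φ z := by
  have h := (measurePreserving_smul g⁻¹ (volume : Measure ℍ)).setIntegral_image_emb
    (measurableEmbedding_const_smul g⁻¹) (fun z => Φ (g • z)) F
  have himg : (fun z : ℍ => g⁻¹ • z) '' F = g⁻¹ • F := Set.image_smul
  rw [himg] at h
  rw [h]
  simp

/-- **Well-definedness of the mean.** -/
theorem IsDatum.mean_eq (h2 : FundamentalDomainIndexStatement) (h1c : OpenPosStatement)
    {Φ : ℍ → ℂ} (hm : Measurable Φ) (hb : ∃ C : ℝ, ∀ z, ‖Φ z‖ ≤ C)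
    {H H' : Subgroup (GL (Fin 2) ℝ)} {F F' : Set ℍ}
    (hD : IsDatum Φ H F) (hD' : IsDatum Φ H' F') :
    (∫ z in F, Φ z) / (((volume : Measure ℍ) F).toReal : ℂ)
      = (∫ z in F', Φ z) / (((volume : Measure ℍ) F').toReal : ℂ) := by
  haveI := hD.countable
  have hcomm : Subgroup.Commensurable H H' := hD.comm.trans hD'.comm.symm
  obtain ⟨F₁, d₁, hd₁, hF₁, hv₁, hi₁⟩ := hD.exists_of_le h2 h1c (H ⊓ H') inf_le_left
    (by rw [Subgroup.inf_relIndex_left]; exact hcomm.2)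
  obtain ⟨F₂, d₂, hd₂, hF₂, hv₂, hi₂⟩ := hD'.exists_of_le h2 h1c (H ⊓ H') inf_le_right
    (by rw [Subgroup.inf_relIndex_right]; exact hcomm.1)
  haveI : Countable ↥(H ⊓ H') :=
    (Subgroup.inclusion_injective (inf_le_left : H ⊓ H' ≤ H)).countable
  have hvol : (volume : Measure ℍ) F₁ = (volume : Measure ℍ) F₂ := hF₁.measure_eq hF₂
  have hint : ∫ z in F₁, Φ z = ∫ z in F₂, Φ z :=
    hF₁.setIntegral_eq hF₂ (fun k x => hD.inv k.1 (inf_le_left (a := H) (b := H') k.2) x)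
  have e1 := hi₁ Φ (integrableOn_of_bdd hm hb hD.fin) hD.inv
  have e2 := hi₂ Φ (integrableOn_of_bdd hm hb hD'.fin) hD'.inv
  have hF0 := hD.volume_ne_zero h1c
  have hF0' := hD'.volume_ne_zero h1c
  have hm1 : ((volume : Measure ℍ) F).toReal ≠ 0 := ENNReal.toReal_ne_zero.mpr ⟨hF0, hD.fin⟩
  have hm2 : ((volume : Measure ℍ) F').toReal ≠ 0 := ENNReal.toReal_ne_zero.mpr ⟨hF0', hD'.fin⟩
  have hv : (d₁ : ℝ) * ((volume : Measure ℍ) F).toReal
      = (d₂ : ℝ) * ((volume : Measure ℍ) F').toReal := by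
    have := congrArg ENNReal.toReal (hv₁.symm.trans (hvol.trans hv₂))
    simpa [ENNReal.toReal_mul] using this
  have hi : (d₁ : ℂ) * ∫ z in F, Φ z = (d₂ : ℂ) * ∫ z in F', Φ z := by
    rw [← e1, ← e2, hint]
  have hd₁' : (d₁ : ℂ) ≠ 0 := Nat.cast_ne_zero.mpr hd₁
  have hd₂' : (d₂ : ℂ) ≠ 0 := Nat.cast_ne_zero.mpr hd₂
  have hvC : (d₁ : ℂ) * (((volume : Measure ℍ) F).toReal : ℂ)
      = (d₂ : ℂ) * (((volume : Measure ℍ) F').toReal : ℂ) := by
    exact_mod_cast hv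
  have hm1' : ((((volume : Measure ℍ) F).toReal : ℝ) : ℂ) ≠ 0 := by exact_mod_cast hm1
  have hm2' : ((((volume : Measure ℍ) F').toReal : ℝ) : ℂ) ≠ 0 := by exact_mod_cast hm2
  rw [div_eq_div_iff hm1' hm2']
  have key : (d₁ : ℂ) * (d₂ : ℂ) * ((∫ z in F, Φ z) * (((volume : Measure ℍ) F').toReal : ℂ))
      = (d₁ : ℂ) * (d₂ : ℂ) * ((∫ z in F', Φ z) * (((volume : Measure ℍ) F).toReal : ℂ)) := by
    calc (d₁ : ℂ) * (d₂ : ℂ) * ((∫ z in F, Φ z) * (((volume : Measure ℍ) F').toReal : ℂ))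
        = ((d₁ : ℂ) * ∫ z in F, Φ z) * ((d₂ : ℂ) * (((volume : Measure ℍ) F').toReal : ℂ)) := by
          ring
      _ = ((d₂ : ℂ) * ∫ z in F', Φ z) * ((d₁ : ℂ) * (((volume : Measure ℍ) F).toReal : ℂ)) := by
          rw [hi, hvC]
      _ = (d₁ : ℂ) * (d₂ : ℂ) * ((∫ z in F', Φ z) * (((volume : Measure ℍ) F).toReal : ℂ)) := by
          ring
  exact mul_left_cancel₀ (mul_ne_zero hd₁' hd₂') key

end Fermat.Agent.H98.Pet
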