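/-
P-PET / PET-MEAN (helper98): the invariant mean.  Assembly of
`Fermat.Agent.H30.InvariantMeanStatement` from the four interface statements.
-/
import Fermat.Agent.H98.Pet.Conj
import Fermat.Agent.H98.Pet.Base
import Fermat.Agent.H30.PeterssonInterfaces

set_option autoImplicit false
set_option linter.style.haveILetI false

open MeasureTheory UpperHalfPlane Matrix.SpecialLinearGroup

open scoped MatrixGroups Pointwise Modular

namespace Fermat.Agent.H98.Pet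

open Fermat.Agent.H30

/-- The invariant mean: `(∫_F Φ) / vol F` for any mean datum `(H, F)` of `Φ` (and `0` if there is
none). -/
noncomputable def mean (Φ : ℍ → ℂ) : ℂ :=
  open Classical in
  if h : ∃ (H : Subgroup (GL (Fin 2) ℝ)) (F : Set ℍ), IsDatum Φ H F then
    (∫ z in h.choose_spec.choose, Φ z)
      / (((volume : Measure ℍ) h.choose_spec.choose).toReal : ℂ)
  else 0

theorem mean_eq_of_datum (h2 : FundamentalDomainIndexStatement) (h1c : OpenPosStatement)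
    {Φ : ℍ → ℂ} (hm : Measurable Φ) (hb : ∃ C : ℝ, ∀ z, ‖Φ z‖ ≤ C)
    {H : Subgroup (GL (Fin 2) ℝ)} {F : Set ℍ} (hD : IsDatum Φ H F) :
    mean Φ = (∫ z in F, Φ z) / (((volume : Measure ℍ) F).toReal : ℂ) := by
  have hex : ∃ (H : Subgroup (GL (Fin 2) ℝ)) (F : Set ℍ), IsDatum Φ H F := ⟨H, F, hD⟩
  rw [mean, dif_pos hex]
  exact IsDatum.mean_eq h2 h1c hm hb hex.choose_spec.choose_spec hD

theorem Gamma_le_of_dvd {M N : ℕ} (h : M ∣ N) :
    CongruenceSubgroup.Gamma N ≤ CongruenceSubgroup.Gamma M := by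
  intro γ hγ
  rw [CongruenceSubgroup.Gamma_mem] at hγ ⊢
  have key : ∀ a : ℤ, ∀ b : ℤ, ((a : ZMod N) = (b : ZMod N)) → ((a : ZMod M) = (b : ZMod M)) := by
    intro a b hab
    have := congrArg (ZMod.castHom h (ZMod M)) hab
    simpa using this
  refine ⟨?_, ?_, ?_, ?_⟩
  · have := key (γ 0 0) 1 (by simpa using hγ.1); simpa using this
  · have := key (γ 0 1) 0 (by simpa using hγ.2.1); simpa using this
  · have := key (γ 1 0) 0 (by simpa using hγ.2.2.1); simpa using this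
  · have := key (γ 1 1) 1 (by simpa using hγ.2.2.2); simpa using this

/-- Every admissible function has a mean datum. -/
theorem exists_datum_of_admissible (h1a : FdFiniteStatement) (h1b : FdAEDisjointStatement)
    (h2 : FundamentalDomainIndexStatement) {Φ : ℍ → ℂ} (hΦ : PetAdmissible Φ) :
    ∃ (H : Subgroup (GL (Fin 2) ℝ)) (F : Set ℍ), IsDatum Φ H F := by
  obtain ⟨-, -, M, hM, hinv⟩ := hΦ
  have h3 : 3 ≤ 3 * M := by omega
  haveI : NeZero (3 * M) := ⟨by omega⟩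
  obtain ⟨F, hF, hfin⟩ := exists_fd_Gamma h1a h1b h2 h3
  refine ⟨(CongruenceSubgroup.Gamma (3 * M)).map (mapGL ℝ), F, ?_, ?_, ?_, hF, hfin⟩
  · haveI := countable_range_mapGL
    exact (Subgroup.inclusion_injective
      (Subgroup.map_le_range (mapGL ℝ) (CongruenceSubgroup.Gamma (3 * M)))).countable
  · exact Subgroup.IsArithmetic.is_commensurable
  · rintro h ⟨γ, hγ, rfl⟩ z
    exact hinv γ (Gamma_le_of_dvd (Dvd.intro_left 3 rfl) hγ) z

/-- Restriction of two data to the intersection of the groups. -/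
theorem exists_common_datum (h2 : FundamentalDomainIndexStatement) (h1c : OpenPosStatement)
    {Φ Ψ : ℍ → ℂ} {H H' : Subgroup (GL (Fin 2) ℝ)} {F F' : Set ℍ}
    (hD : IsDatum Φ H F) (hD' : IsDatum Ψ H' F') :
    ∃ F₁ : Set ℍ, ∀ Ξ : ℍ → ℂ, (∀ h ∈ H ⊓ H', ∀ z : ℍ, Ξ (h • z) = Ξ z) →
      IsDatum Ξ (H ⊓ H') F₁ := by
  haveI := hD.countable
  have hcomm : Subgroup.Commensurable H H' := hD.comm.trans hD'.comm.symm
  have hrel : (H ⊓ H').relIndex H ≠ 0 := by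
    rw [Subgroup.inf_relIndex_left]; exact hcomm.2
  obtain ⟨F₁, d₁, hd₁, hF₁, hv₁, -⟩ := hD.exists_of_le h2 h1c (H ⊓ H') inf_le_left hrel
  refine ⟨F₁, fun Ξ hΞ => ⟨?_, ?_, hΞ, hF₁, ?_⟩⟩
  · exact (Subgroup.inclusion_injective (inf_le_left : H ⊓ H' ≤ H)).countable
  · refine Subgroup.Commensurable.trans ⟨hrel, ?_⟩ hD.comm
    rw [Subgroup.relIndex_eq_one.mpr inf_le_left]
    exact one_ne_zero
  · rw [hv₁]
    exact ENNReal.mul_ne_top (ENNReal.natCast_ne_top _) hD.fin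

theorem admissible_measurable {Φ : ℍ → ℂ} (hΦ : PetAdmissible Φ) : Measurable Φ :=
  hΦ.1.measurable

theorem admissible_bdd {Φ : ℍ → ℂ} (hΦ : PetAdmissible Φ) : ∃ C : ℝ, ∀ z, ‖Φ z‖ ≤ C :=
  hΦ.2.1

/-- Additivity of the mean. -/
theorem mean_add (h1a : FdFiniteStatement) (h1b : FdAEDisjointStatement)
    (h1c : OpenPosStatement) (h2 : FundamentalDomainIndexStatement)
    {Φ Ψ : ℍ → ℂ} (hΦ : PetAdmissible Φ) (hΨ : PetAdmissible Ψ) :
    mean (Φ + Ψ) = mean Φ + mean Ψ := by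
  obtain ⟨H, F, hD⟩ := exists_datum_of_admissible h1a h1b h2 hΦ
  obtain ⟨H', F', hD'⟩ := exists_datum_of_admissible h1a h1b h2 hΨ
  obtain ⟨F₁, hF₁⟩ := exists_common_datum h2 h1c hD hD'
  have d1 : IsDatum Φ (H ⊓ H') F₁ := hF₁ Φ fun h hh z => hD.inv h hh.1 z
  have d2 : IsDatum Ψ (H ⊓ H') F₁ := hF₁ Ψ fun h hh z => hD'.inv h hh.2 z
  have d3 : IsDatum (Φ + Ψ) (H ⊓ H') F₁ := hF₁ (Φ + Ψ) fun h hh z => by
    simp only [Pi.add_apply]
    rw [hD.inv h hh.1 z, hD'.inv h hh.2 z]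
  have hmΦ := (admissible_measurable hΦ)
  have hmΨ := (admissible_measurable hΨ)
  have hbΦ := (admissible_bdd hΦ)
  have hbΨ := (admissible_bdd hΨ)
  have hb3 : ∃ C : ℝ, ∀ z, ‖(Φ + Ψ) z‖ ≤ C := by
    obtain ⟨C₁, h₁⟩ := hbΦ
    obtain ⟨C₂, h₂⟩ := hbΨ
    exact ⟨C₁ + C₂, fun z => (norm_add_le _ _).trans (add_le_add (h₁ z) (h₂ z))⟩
  rw [mean_eq_of_datum h2 h1c hmΦ hbΦ d1, mean_eq_of_datum h2 h1c hmΨ hbΨ d2,
    mean_eq_of_datum h2 h1c (hmΦ.add hmΨ) hb3 d3]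
  have hi : ∫ z in F₁, (Φ + Ψ) z = (∫ z in F₁, Φ z) + ∫ z in F₁, Ψ z := by
    simp only [Pi.add_apply]
    exact integral_add (integrableOn_of_bdd hmΦ hbΦ d1.fin) (integrableOn_of_bdd hmΨ hbΨ d2.fin)
  rw [hi, add_div]

/-- Invariance of the mean under elements of the commensurator of `SL(2, ℤ)`. -/
theorem mean_comp_smul (h1a : FdFiniteStatement) (h1b : FdAEDisjointStatement)
    (h1c : OpenPosStatement) (h2 : FundamentalDomainIndexStatement)
    {Φ : ℍ → ℂ} (hΦ : PetAdmissible Φ) (g : GL (Fin 2) ℝ)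
    (hg : Subgroup.Commensurable (ConjAct.toConjAct g⁻¹ • 𝒮ℒ) 𝒮ℒ) :
    mean (fun z => Φ (g • z)) = mean Φ := by
  obtain ⟨H, F, hD⟩ := exists_datum_of_admissible h1a h1b h2 hΦ
  have hD' := hD.conj g hg
  have hcont : Continuous fun z : ℍ => g • z := continuous_const_smul g
  have hm' : Measurable fun z => Φ (g • z) := (hΦ.1.comp hcont).measurable
  have hb' : ∃ C : ℝ, ∀ z, ‖Φ (g • z)‖ ≤ C := by
    obtain ⟨C, hC⟩ := (admissible_bdd hΦ)
    exact ⟨C, fun z => hC _⟩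
  rw [mean_eq_of_datum h2 h1c hm' hb' hD', mean_eq_of_datum h2 h1c (admissible_measurable hΦ) (admissible_bdd hΦ) hD,
    setIntegral_smul_inv, measure_smul]

theorem commensurable_of_mem_range {g : GL (Fin 2) ℝ} (hg : g ∈ 𝒮ℒ) :
    Subgroup.Commensurable (ConjAct.toConjAct g⁻¹ • 𝒮ℒ) 𝒮ℒ := by
  have : ConjAct.toConjAct g⁻¹ • 𝒮ℒ = 𝒮ℒ := by
    ext h
    rw [Subgroup.mem_pointwise_smul_iff_inv_smul_mem, ← map_inv, inv_inv,
      ConjAct.toConjAct_smul]
    constructor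
    · intro hh
      have := Subgroup.mul_mem _ (Subgroup.mul_mem _ (Subgroup.inv_mem _ hg) hh) hg
      have e : g⁻¹ * (g * h * g⁻¹) * g = h := by group
      rwa [e] at this
    · intro hh
      exact Subgroup.mul_mem _ (Subgroup.mul_mem _ hg hh) (Subgroup.inv_mem _ hg)
  rw [this]

theorem commensurable_of_rat (q : GL (Fin 2) ℚ) :
    Subgroup.Commensurable
      (ConjAct.toConjAct (q.map (Rat.castHom ℝ))⁻¹ • 𝒮ℒ) 𝒮ℒ := by
  have := (CongruenceSubgroup.isArithmetic_conj_SL2Z q⁻¹).is_commensurable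
  rwa [map_inv] at this

end Fermat.Agent.H98.Pet
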