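/-
P-PET / PET-MEAN (helper98): the invariant mean, final assembly.

`invariantMean : Fermat.Agent.H30.InvariantMeanStatement` (unconditional), from
* `Fermat.Agent.H33.Pet.fdFinite` (PET-M1a),
* `Fermat.Agent.H61.fdAEDisjoint` (PET-M1b),
* `Fermat.Agent.H77.pet_openPos` (PET-M1c),
* `Fermat.Agent.H34.fundamentalDomainIndex` (PET-M2).
-/
import Fermat.Agent.H98.Pet.Mean
import Fermat.Agent.H33.Pet.FdFinite
import Fermat.Agent.H34.Pet.FundDomIndex
import Fermat.Agent.H77.PetOpenPos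
import Fermat.Agent.H61.PetFdDisjoint

set_option autoImplicit false
set_option linter.style.haveILetI false

open MeasureTheory UpperHalfPlane Matrix.SpecialLinearGroup

open scoped MatrixGroups Pointwise Modular

namespace Fermat.Agent.H98.Pet

open Fermat.Agent.H30

/-- The rational matrix `diag(ℓ, 1)`. -/
noncomputable def ratDiag (ℓ : ℕ) (hℓ : 0 < ℓ) : GL (Fin 2) ℚ :=
  Matrix.GeneralLinearGroup.mkOfDetNeZero !![(ℓ : ℚ), 0; 0, 1] (by
    rw [Matrix.det_fin_two_of]
    simp only [mul_one, mul_zero, sub_zero]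
    exact_mod_cast hℓ.ne')

/-- The rational matrix `diag(1, ℓ)`. -/
noncomputable def ratDiag' (ℓ : ℕ) (hℓ : 0 < ℓ) : GL (Fin 2) ℚ :=
  Matrix.GeneralLinearGroup.mkOfDetNeZero !![(1 : ℚ), 0; 0, (ℓ : ℚ)] (by
    rw [Matrix.det_fin_two_of]
    simp only [one_mul, mul_zero, sub_zero]
    exact_mod_cast hℓ.ne')

theorem ratDiag_map (ℓ : ℕ) (hℓ : 0 < ℓ) :
    (ratDiag ℓ hℓ).map (Rat.castHom ℝ) = ModularForm.heckeDiagMatrix ℓ := by
  apply Matrix.GeneralLinearGroup.ext
  intro i j
  rw [ModularForm.val_heckeDiagMatrix hℓ.ne']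
  fin_cases i <;> fin_cases j <;> simp [ratDiag]

theorem ratDiag'_map (ℓ : ℕ) (hℓ : 0 < ℓ) :
    (ratDiag' ℓ hℓ).map (Rat.castHom ℝ) = ModularForm.heckeMatrix ℓ 0 := by
  apply Matrix.GeneralLinearGroup.ext
  intro i j
  rw [ModularForm.val_heckeMatrix hℓ.ne']
  fin_cases i <;> fin_cases j <;> simp [ratDiag']

/-- Definiteness of the mean. -/
theorem mean_definite (h1a : FdFiniteStatement) (h1b : FdAEDisjointStatement)
    (h1c : OpenPosStatement) (h2 : FundamentalDomainIndexStatement)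
    {Φ : ℍ → ℂ} (hΦ : PetAdmissible Φ) (hpos : ∀ z, 0 ≤ (Φ z).re ∧ (Φ z).im = 0)
    (h0 : mean Φ = 0) : ∀ z, Φ z = 0 := by
  obtain ⟨H, F, hD⟩ := exists_datum_of_admissible h1a h1b h2 hΦ
  haveI := hD.countable
  have hm := admissible_measurable hΦ
  have hb := admissible_bdd hΦ
  rw [mean_eq_of_datum h2 h1c hm hb hD] at h0
  have hF0 := hD.volume_ne_zero h1c
  have hm1 : ((volume : Measure ℍ) F).toReal ≠ 0 := ENNReal.toReal_ne_zero.mpr ⟨hF0, hD.fin⟩
  have hm1' : ((((volume : Measure ℍ) F).toReal : ℝ) : ℂ) ≠ 0 := by exact_mod_cast hm1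
  have hint : ∫ z in F, Φ z = 0 := by
    rcases div_eq_zero_iff.mp h0 with h | h
    · exact h
    · exact absurd h hm1'
  have hI : IntegrableOn Φ F (volume : Measure ℍ) := integrableOn_of_bdd hm hb hD.fin
  have hre : ∫ z in F, (Φ z).re = 0 := by
    have h1 := ContinuousLinearMap.integral_comp_comm Complex.reCLM hI
    simp only [Complex.reCLM_apply] at h1
    rw [h1, hint, Complex.zero_re]
  have hIre : IntegrableOn (fun z => (Φ z).re) F (volume : Measure ℍ) := hI.re
  have hae := (setIntegral_eq_zero_iff_of_nonneg_ae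
    (Filter.Eventually.of_forall fun z => (hpos z).1) hIre).mp hre
  -- the open invariant set where `Φ ≠ 0`
  let S : Set ℍ := {z | Φ z ≠ 0}
  have hSopen : IsOpen S := isOpen_ne_fun hΦ.1 continuous_const
  have hSF : (volume : Measure ℍ) (S ∩ F) = 0 := by
    rw [← Measure.restrict_apply hSopen.measurableSet]
    have : S = {z | (Φ z).re ≠ (0 : ℍ → ℝ) z} := by
      ext z
      simp only [S, Set.mem_ofPred_eq, Pi.zero_apply, ne_eq]
      constructor
      · intro h hr
        exact h (Complex.ext hr (hpos z).2)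
      · intro h hz
        exact h (by rw [hz]; rfl)
    rw [this]
    exact hae
  have hSinv : ∀ g : H, g • S = S := by
    intro g
    ext z
    rw [Set.mem_smul_set_iff_inv_smul_mem]
    simp only [S, Set.mem_ofPred_eq]
    have : Φ (g⁻¹ • z) = Φ z := hD.inv _ (g⁻¹).2 z
    rw [this]
  have hS0 : (volume : Measure ℍ) S = 0 := hD.isFD.measure_zero_of_invariant S hSinv hSF
  intro z
  by_contra hz
  exact h1c S hSopen ⟨z, hz⟩ hS0

/-- **PET-MEAN**, conditional on the four interface statements. -/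
theorem invariantMean_of (h1a : FdFiniteStatement) (h1b : FdAEDisjointStatement)
    (h1c : OpenPosStatement) (h2 : FundamentalDomainIndexStatement) :
    InvariantMeanStatement := by
  refine ⟨mean, ?_, ?_, ?_, ?_, ?_⟩
  · intro Φ Ψ hΦ hΨ
    exact mean_add h1a h1b h1c h2 hΦ hΨ
  · intro Φ hΦ γ
    exact mean_comp_smul h1a h1b h1c h2 hΦ (mapGL ℝ γ) (commensurable_of_mem_range ⟨γ, rfl⟩)
  · intro Φ hΦ ℓ hℓ
    have := mean_comp_smul h1a h1b h1c h2 hΦ _ (commensurable_of_rat (ratDiag ℓ hℓ))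
    rwa [ratDiag_map] at this
  · intro Φ hΦ ℓ hℓ
    have := mean_comp_smul h1a h1b h1c h2 hΦ _ (commensurable_of_rat (ratDiag' ℓ hℓ))
    rwa [ratDiag'_map] at this
  · intro Φ hΦ hpos h0
    exact mean_definite h1a h1b h1c h2 hΦ hpos h0

/-- **PET-MEAN** (row 349): the invariant mean exists. -/
theorem invariantMean : InvariantMeanStatement :=
  invariantMean_of Fermat.Agent.H33.Pet.fdFinite Fermat.Agent.H61.fdAEDisjoint
    Fermat.Agent.H77.pet_openPos Fermat.Agent.H34.fundamentalDomainIndex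

end Fermat.Agent.H98.Pet
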